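import Fermat.Agent.DeligneSerre.Chebotarev.LatticeChar
import Fermat.Agent.GalRep.Density.PrimeSum

/-!
# Characters of the norm: bounded series and prime sums bounded above

For a totally complex field and a Dirichlet character `η` which is not `1` at the norm of some
prime, `∑ η (N I) N I ^ (-s)` is bounded as `s → 1⁺`; hence `∑ a(p) Re η(p) p ^ (-s)` is bounded
above, `a(p)` being the number of primes of norm `p`.
-/

set_option autoImplicit false

noncomputable section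

namespace FermatAgent.DeligneSerre

open NumberField Filter Topology FermatAgent.CFT IsDedekindDomain
open scoped nonZeroDivisors Classical

variable {K : Type} [Field K] [NumberField K] {m : ℕ} (η : DirichletCharacter ℂ m)

/-- Orbit decomposition of a weighted lattice sum. -/
theorem hasSum_principal_char {s : ℝ} (hs : 1 < s) (J : (Ideal (𝓞 K))⁰) :
    HasSum (fun I : {I : (Ideal (𝓞 K))⁰ //
        (J : Ideal (𝓞 K)) ∣ I ∧ (I : Ideal (𝓞 K)).IsPrincipal} ↦
      η (((Ideal.absNorm (I.1 : Ideal (𝓞 K)) / Ideal.absNorm (J : Ideal (𝓞 K)) : ℕ)) : ZMod m) *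
        (((Ideal.absNorm (I.1 : Ideal (𝓞 K)) : ℝ) ^ (-s) : ℝ) : ℂ))
      (∑' a : 𝓞 K, quotWeight η (J : Ideal (𝓞 K)) a * (intWeight s a : ℂ)) := by
  let P := {I : (Ideal (𝓞 K))⁰ // (J : Ideal (𝓞 K)) ∣ I ∧ (I : Ideal (𝓞 K)).IsPrincipal}
  have hgen : ∀ I : P, ∃ g : 𝓞 K, g ≠ 0 ∧ g ∈ (J : Ideal (𝓞 K)) ∧
      (I.1 : Ideal (𝓞 K)) = Ideal.span {g} := by
    intro I
    obtain ⟨g, hg⟩ := I.2.2.principal
    rw [← Ideal.span] at hg
    refine ⟨g, ?_, ?_, hg⟩
    · rintro rfl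
      exact nonZeroDivisors.coe_ne_zero I.1 (by simpa using hg)
    · have := I.2.1
      rw [hg, Ideal.dvd_iff_le, Ideal.span_singleton_le_iff_mem] at this
      exact this
  choose g hg0 hgJ hgspan using hgen
  let Ψ : P × (𝓞 K)ˣ → 𝓞 K := fun p ↦ (p.2 : 𝓞 K) * g p.1
  have hΨ : Function.Injective Ψ := by
    rintro ⟨I, u⟩ ⟨I', u'⟩ h
    have h' : (u : 𝓞 K) * g I = (u' : 𝓞 K) * g I' := h
    have hI : I = I' := by
      refine Subtype.ext (Subtype.ext ?_)
      rw [hgspan I, hgspan I', Ideal.span_singleton_eq_span_singleton]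
      exact ⟨u'⁻¹ * u, by rw [Units.val_mul, ← mul_assoc, mul_comm (g I), mul_assoc,
        mul_comm (g I), h', ← mul_assoc, Units.inv_mul, one_mul]⟩
    subst hI
    rw [mul_left_inj' (hg0 I), Units.val_inj] at h'
    rw [h']
  let F : 𝓞 K → ℂ := fun a => quotWeight η (J : Ideal (𝓞 K)) a * (intWeight s a : ℂ)
  have hsupp : Function.support F ⊆ Set.range Ψ := by
    intro a ha
    have ha0 : a ≠ 0 := by
      intro h
      exact ha (by simp only [F, intWeight, h, map_zero, weightedNorm_zero, Complex.ofReal_zero,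
        mul_zero])
    have haJ : a ∈ (J : Ideal (𝓞 K)) := by
      by_contra h
      exact ha (by simp only [F, quotWeight, if_neg h, zero_mul])
    let I : P := ⟨⟨Ideal.span {a}, mem_nonZeroDivisors_of_ne_zero (by simpa using ha0)⟩,
      Ideal.dvd_iff_le.mpr ((Ideal.span_singleton_le_iff_mem _).mpr haJ),
      ⟨⟨a, rfl⟩⟩⟩
    obtain ⟨u, hu⟩ := Ideal.span_singleton_eq_span_singleton.mp (hgspan I).symm
    exact ⟨(I, u), (mul_comm _ _).trans hu⟩
  let c : P → ℂ := fun I =>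
    η (((Ideal.absNorm (I.1 : Ideal (𝓞 K)) / Ideal.absNorm (J : Ideal (𝓞 K)) : ℕ)) : ZMod m)
  have hspan : ∀ p : P × (𝓞 K)ˣ, Ideal.span {Ψ p} = (p.1.1 : Ideal (𝓞 K)) := fun p => by
    rw [hgspan]
    exact Ideal.span_singleton_mul_left_unit (Units.isUnit _) _
  have hterm : ∀ p : P × (𝓞 K)ˣ, F (Ψ p) =
      c p.1 * ((unitWeight (p.2 • mixedEmbedding K (g p.1 : K)) *
        (Ideal.absNorm (p.1.1 : Ideal (𝓞 K)) : ℝ) ^ (-s) : ℝ) : ℂ) := by
    intro p
    have h1 : mixedEmbedding K ((Ψ p : 𝓞 K) : K) = p.2 • mixedEmbedding K (g p.1 : K) := by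
      simp [Ψ, mixedEmbedding.unitSMul_smul]
    have h2 : (Ideal.absNorm (p.1.1 : Ideal (𝓞 K)) : ℝ) =
        mixedEmbedding.norm (mixedEmbedding K (g p.1 : K)) := by
      rw [hgspan, Ideal.absNorm_span_singleton, mixedEmbedding.norm_eq_norm, Nat.cast_natAbs,
        ← Algebra.coe_norm_int, ← Int.cast_abs, Rat.cast_intCast]
    have h3 : quotWeight η (J : Ideal (𝓞 K)) (Ψ p) = c p.1 := by
      rw [quotWeight, if_pos (Ideal.mul_mem_left _ _ (hgJ p.1)), hspan]
    simp only [F, h3]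
    rw [intWeight, weightedNorm, h1, mixedEmbedding.norm_unit_smul, ← h2, max_eq_left]
    exact Nat.one_le_cast.mpr (Nat.one_le_iff_ne_zero.mpr
      (Ideal.absNorm_ne_zero_of_nonZeroDivisors p.1.1))
  have hFsum : Summable F :=
    Summable.of_norm_bounded (summable_intWeight hs) fun a => by
      rw [norm_mul, Complex.norm_real, Real.norm_of_nonneg (intWeight_nonneg s a)]
      exact mul_le_of_le_one_left (intWeight_nonneg s a) (norm_quotWeight_le η _ a)
  have hsum : Summable fun p : P × (𝓞 K)ˣ ↦ F (Ψ p) := hFsum.comp_injective hΨ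
  have hinner : ∀ I : P, ∑' u : (𝓞 K)ˣ, F (Ψ (I, u)) =
      c I * (((Ideal.absNorm (I.1 : Ideal (𝓞 K)) : ℝ) ^ (-s) : ℝ) : ℂ) := by
    intro I
    simp_rw [hterm]
    rw [tsum_mul_left, ← Complex.ofReal_tsum, tsum_mul_right, tsum_unitWeight, one_mul]
    rw [mixedEmbedding.norm_eq_norm, ne_eq, Rat.cast_eq_zero, abs_eq_zero,
      Algebra.norm_eq_zero_iff]
    simpa using hg0 I
  have h3 : HasSum (fun p : P × (𝓞 K)ˣ ↦ F (Ψ p)) (∑' a, F a) := by
    rw [← hΨ.tsum_eq hsupp]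
    exact hsum.hasSum
  exact h3.prod_fiberwise fun I ↦ hinner I ▸ (hsum.prod_factor I).hasSum

/-- The twisted series of an ideal class. -/
def charClassSeries (C : ClassGroup (𝓞 K)) (s : ℝ) : ℂ :=
  ∑' I : {I : (Ideal (𝓞 K))⁰ // ClassGroup.mk0 I = C},
    normChar η I.1 * (((Ideal.absNorm (I.1 : Ideal (𝓞 K)) : ℝ) ^ (-s) : ℝ) : ℂ)

theorem charClassSeries_eq {s : ℝ} (hs : 1 < s) {C : ClassGroup (𝓞 K)} {J : (Ideal (𝓞 K))⁰}
    (hJ : ClassGroup.mk0 J = C⁻¹) :
    charClassSeries η C s = (((Ideal.absNorm (J : Ideal (𝓞 K)) : ℝ) ^ s : ℝ) : ℂ) *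
      ∑' a : 𝓞 K, quotWeight η (J : Ideal (𝓞 K)) a * (intWeight s a : ℂ) := by
  let P := {I : (Ideal (𝓞 K))⁰ // (J : Ideal (𝓞 K)) ∣ I ∧ (I : Ideal (𝓞 K)).IsPrincipal}
  have hmem : ∀ I : {I : (Ideal (𝓞 K))⁰ // ClassGroup.mk0 I = C},
      (J : Ideal (𝓞 K)) ∣ ((J * I.1 : (Ideal (𝓞 K))⁰) : Ideal (𝓞 K)) ∧
        ((J * I.1 : (Ideal (𝓞 K))⁰) : Ideal (𝓞 K)).IsPrincipal := fun I ↦
    ⟨by simp, (ClassGroup.mk0_eq_one_iff (SetLike.coe_mem _)).mp
      (by rw [map_mul, hJ, I.2, inv_mul_cancel])⟩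
  let e : {I : (Ideal (𝓞 K))⁰ // ClassGroup.mk0 I = C} → P := fun I ↦ ⟨J * I.1, hmem I⟩
  have he : Function.Bijective e := by
    refine ⟨fun I I' h ↦ Subtype.ext (mul_left_cancel congr(($h).1)), fun I ↦ ?_⟩
    obtain ⟨I₀, hI₀⟩ := I.2.1
    have hI₀' : I₀ ∈ (Ideal (𝓞 K))⁰ := by
      have := I.1.2
      rw [hI₀] at this
      exact (mul_mem_nonZeroDivisors.mp this).2
    have hI : J * ⟨I₀, hI₀'⟩ = I.1 := Subtype.ext hI₀.symm
    refine ⟨⟨⟨I₀, hI₀'⟩, ?_⟩, Subtype.ext hI⟩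
    have := (ClassGroup.mk0_eq_one_iff (SetLike.coe_mem I.1)).mpr I.2.2
    rwa [← hI, map_mul, hJ, inv_mul_eq_one, eq_comm] at this
  have h := ((Equiv.ofBijective e he).hasSum_iff.mpr (hasSum_principal_char η hs J)).mul_left
    ((((Ideal.absNorm (J : Ideal (𝓞 K)) : ℝ) ^ s : ℝ) : ℂ))
  rw [charClassSeries]
  refine (h.congr_fun fun I ↦ ?_).tsum_eq
  simp only [Function.comp_apply, Equiv.ofBijective_apply, e, Submonoid.coe_mul, map_mul,
    Nat.cast_mul, normChar]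
  have hJ0 : 0 < Ideal.absNorm (J : Ideal (𝓞 K)) := Ideal.absNorm_pos_of_nonZeroDivisors J
  have hJ0' : (0 : ℝ) < Ideal.absNorm (J : Ideal (𝓞 K)) := Nat.cast_pos.mpr hJ0
  rw [Nat.mul_div_cancel_left _ hJ0, Real.mul_rpow hJ0'.le (Nat.cast_nonneg _), ← mul_assoc,
    mul_comm ((((Ideal.absNorm (J : Ideal (𝓞 K)) : ℝ) ^ s : ℝ) : ℂ)), mul_assoc,
    ← Complex.ofReal_mul, ← mul_assoc, ← Real.rpow_add hJ0', add_neg_cancel, Real.rpow_zero,
    one_mul]

variable [IsTotallyComplex K] [NeZero m]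

/-- Each class series is its constant times the lattice sum, up to a bounded error. -/
theorem exists_charClassSeries_bound {C : ClassGroup (𝓞 K)} {J : (Ideal (𝓞 K))⁰}
    (hJ : ClassGroup.mk0 J = C⁻¹) :
    ∃ B : ℝ, ∀ᶠ s in 𝓝[>] (1 : ℝ), ‖charClassSeries η C s -
      classConst η (J : Ideal (𝓞 K)) * ((∑' a : 𝓞 K, intWeight s a : ℝ) : ℂ)‖ ≤ B := by
  set J₀ : Ideal (𝓞 K) := (J : Ideal (𝓞 K))
  have hM : Ideal.span {(m : 𝓞 K)} * J₀ ≠ ⊥ :=
    mul_ne_zero (by simpa using NeZero.ne m) (nonZeroDivisors.coe_ne_zero J)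
  obtain ⟨B, hB⟩ := exists_periodic_bound _ hM (quotWeight η J₀) (B₀ := 1)
    (norm_quotWeight_le η J₀) fun a b hb => quotWeight_periodic η J a b hb
  obtain ⟨B', hB'⟩ := exists_sub_one_mul_sum_intWeight_le (K := K)
  set n : ℝ := (Ideal.absNorm J₀ : ℝ)
  have hn1 : 1 ≤ n := Nat.one_le_cast.mpr
    (Nat.one_le_iff_ne_zero.mpr (Ideal.absNorm_ne_zero_of_nonZeroDivisors J))
  refine ⟨n ^ (2 : ℝ) * |B| + ‖classConst η J₀‖ * (n * |B'|), ?_⟩
  filter_upwards [self_mem_nhdsWithin,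
    nhdsWithin_le_nhds (Iic_mem_nhds (by norm_num : (1 : ℝ) < 2)), hB'] with s hs₁ hs₂ hs'
  simp only [Set.mem_Ioi, Set.mem_Iic] at hs₁ hs₂
  have hS := hB s hs₁ hs₂
  set S₀ : ℝ := ∑' a : 𝓞 K, intWeight s a
  have hS0 : 0 ≤ S₀ := tsum_nonneg fun a => intWeight_nonneg s a
  set X := ∑' a : 𝓞 K, quotWeight η J₀ a * (intWeight s a : ℂ)
  set k := (∑ᶠ q : 𝓞 K ⧸ (Ideal.span {(m : 𝓞 K)} * J₀).toAddSubgroup, quotWeight η J₀ q.out) /
    (Ideal.absNorm (Ideal.span {(m : 𝓞 K)} * J₀) : ℂ)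
  have hk : classConst η J₀ = k * (n : ℂ) := rfl
  rw [charClassSeries_eq η hs₁ hJ, hk]
  have hsplit : ((n ^ s : ℝ) : ℂ) * X - k * (n : ℂ) * (S₀ : ℂ) =
      ((n ^ s : ℝ) : ℂ) * (X - k * (S₀ : ℂ)) + k * (n : ℂ) * (((n ^ (s - 1) - 1) * S₀ : ℝ) : ℂ) := by
    have : ((n ^ s : ℝ) : ℂ) = (n : ℂ) * ((n ^ (s - 1) : ℝ) : ℂ) := by
      rw [← Complex.ofReal_mul, ← Real.rpow_one_add' (by linarith) (by linarith),
        add_sub_cancel]
    rw [this]
    push_cast
    ring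
  rw [hsplit]
  refine (norm_add_le _ _).trans (add_le_add ?_ ?_)
  · rw [norm_mul, Complex.norm_real, Real.norm_of_nonneg (Real.rpow_nonneg (by linarith) _)]
    exact mul_le_mul (Real.rpow_le_rpow_of_exponent_le hn1 hs₂) (hS.trans (le_abs_self _))
      (norm_nonneg _) (by positivity)
  · rw [norm_mul _ ((((n ^ (s - 1) - 1) * S₀ : ℝ)) : ℂ), ← hk, Complex.norm_real, Real.norm_eq_abs]
    refine mul_le_mul_of_nonneg_left ?_ (norm_nonneg _)
    have hpow : n ^ (s - 1) - 1 ≤ (s - 1) * n := by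
      have := rpow_one_add_le_one_add_mul_self (by linarith : (-1 : ℝ) ≤ n - 1)
        (by linarith : 0 ≤ s - 1) (by linarith : s - 1 ≤ 1)
      rw [add_sub_cancel] at this
      nlinarith
    have hpow1 : 1 ≤ n ^ (s - 1) := Real.one_le_rpow hn1 (by linarith)
    rw [abs_of_nonneg (mul_nonneg (by linarith) hS0)]
    calc (n ^ (s - 1) - 1) * S₀ ≤ n * ((s - 1) * S₀) := by
          rw [← mul_assoc, mul_comm n]; exact mul_le_mul_of_nonneg_right hpow hS0
      _ ≤ n * |B'| := mul_le_mul_of_nonneg_left (hs'.trans (le_abs_self _)) (by linarith)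

/-- **The series of a character which is not trivial on norms is bounded.** -/
theorem exists_sum_charClassSeries_bound {P : (Ideal (𝓞 K))⁰}
    (hP : IsUnit ((Ideal.absNorm (P : Ideal (𝓞 K)) : ℕ) : ZMod m)) (hη : normChar η P ≠ 1) :
    ∃ B : ℝ, ∀ᶠ s in 𝓝[>] (1 : ℝ), ‖∑ C : ClassGroup (𝓞 K), charClassSeries η C s‖ ≤ B := by
  choose J hJ using fun C : ClassGroup (𝓞 K) => ClassGroup.mk0_surjective C⁻¹
  set c := ClassGroup.mk0 P
  have hJ' : ∀ C, ClassGroup.mk0 (J (C * c) * P) = C⁻¹ := fun C => by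
    rw [map_mul, hJ, mul_inv_rev, mul_comm c⁻¹, inv_mul_cancel_right]
  choose B₁ hB₁ using fun C => exists_charClassSeries_bound η (hJ C)
  choose B₂ hB₂ using fun C => exists_charClassSeries_bound η (hJ' C)
  set e := normChar η P
  refine ⟨((∑ C, B₁ C) + ‖e‖ * ∑ C, B₂ C) / ‖e - 1‖, ?_⟩
  filter_upwards [eventually_all.mpr hB₁, eventually_all.mpr hB₂] with s h₁ h₂
  set S₀ : ℂ := ((∑' a : 𝓞 K, intWeight s a : ℝ) : ℂ)
  set L := ∑ C : ClassGroup (𝓞 K), charClassSeries η C s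
  set κ := ∑ C : ClassGroup (𝓞 K), classConst η (J C : Ideal (𝓞 K))
  have e₁ : ‖L - κ * S₀‖ ≤ ∑ C, B₁ C := by
    rw [Finset.sum_mul, ← Finset.sum_sub_distrib]
    exact (norm_sum_le _ _).trans (Finset.sum_le_sum fun C _ => h₁ C)
  have e₂ : ‖e * L - κ * S₀‖ ≤ ‖e‖ * ∑ C, B₂ C := by
    have hκ : κ * S₀ = e * ∑ C, classConst η ((J (C * c) * P : (Ideal (𝓞 K))⁰) : Ideal (𝓞 K)) * S₀ := by
      rw [Finset.mul_sum, Finset.sum_mul]
      refine (Fintype.sum_equiv (Equiv.mulRight c) _ _ fun C => ?_).symm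
      rw [← mul_assoc, classConst_mul η _ P hP]
      rfl
    rw [hκ, ← mul_sub, norm_mul, ← Finset.sum_sub_distrib]
    exact mul_le_mul_of_nonneg_left
      ((norm_sum_le _ _).trans (Finset.sum_le_sum fun C _ => h₂ C)) (norm_nonneg _)
  rw [le_div_iff₀ (norm_pos_iff.mpr (sub_ne_zero.mpr hη)), ← norm_mul,
    show L * (e - 1) = (e * L - κ * S₀) - (L - κ * S₀) by ring]
  refine (norm_sub_le _ _).trans ?_
  linarith

set_option maxHeartbeats 1000000 in
/-- The Euler product of the character series, and its real part bounded above. -/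
theorem exists_primeSum_char_le {P : (Ideal (𝓞 K))⁰}
    (hP : IsUnit ((Ideal.absNorm (P : Ideal (𝓞 K)) : ℕ) : ZMod m)) (hη : normChar η P ≠ 1) :
    ∃ B : ℝ, ∀ᶠ s in 𝓝[>] (1 : ℝ),
      GalRep.primeSum (fun p : Nat.Primes =>
        (GalRep.idealCount K p : ℝ) * (η ((p : ℕ) : ZMod m)).re) s ≤ B := by
  obtain ⟨B₀, hB₀⟩ := exists_sum_charClassSeries_bound η hP hη
  let x : ℝ → HeightOneSpectrum (𝓞 K) → ℂ := fun s Q =>
    η ((Ideal.absNorm Q.asIdeal : ℕ) : ZMod m) * (primeTerm s Q : ℂ)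
  obtain ⟨e, he⟩ : ∃ e : Multiset (HeightOneSpectrum (𝓞 K)) ≃ (Ideal (𝓞 K))⁰,
      ∀ μ, e μ = idealOfMultiset K μ :=
    ⟨Equiv.ofBijective _ (idealOfMultiset_bijective K), fun _ ↦ rfl⟩
  obtain ⟨B₃, hB₃⟩ := upperDens_nonprime_norm (K := K)
  refine ⟨Real.log (max B₀ 1) + B₃ + 2 * ∑' Q : HeightOneSpectrum (𝓞 K), primeTerm 2 Q, ?_⟩
  filter_upwards [hB₀, hB₃, self_mem_nhdsWithin] with s hL h3 (hs : 1 < s)
  rw [zero_mul, zero_add] at h3
  let f : (Ideal (𝓞 K))⁰ → ℂ := fun I ↦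
    normChar η I * (((Ideal.absNorm (I : Ideal (𝓞 K)) : ℝ) ^ (-s) : ℝ) : ℂ)
  have hprod : ∀ μ : Multiset (HeightOneSpectrum (𝓞 K)), (μ.map (x s)).prod = f (e μ) := by
    intro μ
    rw [he]
    induction μ using Multiset.induction_on with
    | empty => simp [idealOfMultiset, f, normChar]
    | cons Q μ ih =>
      have h : idealOfMultiset K (Q ::ₘ μ) =
          ⟨Q.asIdeal, mem_nonZeroDivisors_of_ne_zero Q.ne_bot⟩ * idealOfMultiset K μ := by
        simp [idealOfMultiset]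
      simp only [f] at ih ⊢
      rw [Multiset.map_cons, Multiset.prod_cons, ih, h, normChar_mul, Submonoid.coe_mul, map_mul,
        Nat.cast_mul, Real.mul_rpow (Nat.cast_nonneg _) (Nat.cast_nonneg _)]
      simp only [x, primeTerm, Complex.ofReal_mul, normChar]
      ring
  have hf : Summable fun I ↦ ‖f I‖ := by
    refine Summable.of_nonneg_of_le (fun I => norm_nonneg _) (fun I => ?_)
      (summable_absNorm_rpow (K := K) hs)
    rw [norm_mul, Complex.norm_real, Real.norm_of_nonneg (Real.rpow_nonneg (Nat.cast_nonneg _) _)]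
    exact mul_le_of_le_one_left (Real.rpow_nonneg (Nat.cast_nonneg _) _) (norm_normChar_le η I)
  have hnx : ∀ Q, ‖x s Q‖ ≤ primeTerm s Q := fun Q => by
    rw [norm_mul, Complex.norm_real, Real.norm_of_nonneg (primeTerm_pos s Q).le]
    exact mul_le_of_le_one_left (primeTerm_pos s Q).le (η.norm_le_one _)
  have hhalf : ∀ Q, ‖x s Q‖ ≤ 1 / 2 := fun Q => (hnx Q).trans (primeTerm_le_half hs.le Q)
  have hexp := exp_tsum_neg_log_one_sub (x := x s)
    ((e.summable_iff.mpr hf).congr fun μ => by rw [Function.comp_apply, hprod μ])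
    (fun Q => lt_of_le_of_lt (hhalf Q) (by norm_num))
  rw [tsum_congr hprod, e.tsum_eq f] at hexp
  have hsum : ∑' I, f I = ∑ C : ClassGroup (𝓞 K), charClassSeries η C s := by
    rw [← (Equiv.sigmaFiberEquiv ClassGroup.mk0).tsum_eq f]
    have hσ : Summable fun p ↦ f (Equiv.sigmaFiberEquiv ClassGroup.mk0 p) :=
      (Equiv.sigmaFiberEquiv ClassGroup.mk0).summable_iff.mpr hf.of_norm
    rw [hσ.tsum_sigma, tsum_fintype]
    rfl
  have hx1 : Summable (x s) := Summable.of_norm_bounded (summable_primeTerm hs) hnx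
  have hlog : Summable fun Q => -Complex.log (1 - x s Q) := hx1.clog_one_sub.neg
  -- the real part is at most `log B₀`
  have hre : (∑' Q, -Complex.log (1 - x s Q)).re ≤ Real.log (max B₀ 1) := by
    rw [← Real.log_exp (Complex.re _)]
    refine Real.log_le_log (Real.exp_pos _) ?_
    rw [← Complex.norm_exp, hexp, hsum]
    exact hL.trans (le_max_left _ _)
  -- term by term
  have hterm : ∀ Q, (x s Q).re ≤ (-Complex.log (1 - x s Q)).re + 2 * primeTerm 2 Q := fun Q => by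
    have h1 := Complex.norm_log_one_add_sub_self_le (z := -x s Q)
      (by rw [norm_neg]; exact lt_of_le_of_lt (hhalf Q) (by norm_num))
    rw [← sub_eq_add_neg, sub_neg_eq_add, norm_neg] at h1
    have h2 := (Complex.re_le_norm (Complex.log (1 - x s Q) + x s Q)).trans h1
    have h4 : (1 - ‖x s Q‖)⁻¹ ≤ 2 := by
      rw [inv_le_iff_one_le_mul₀ (by linarith [hhalf Q])]
      linarith [hhalf Q]
    have h5 : ‖x s Q‖ ^ 2 ≤ primeTerm 2 Q := by
      refine (pow_le_pow_left₀ (norm_nonneg _) (hnx Q) 2).trans ?_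
      rw [primeTerm, primeTerm, ← Real.rpow_mul_natCast (Nat.cast_nonneg _)]
      exact Real.rpow_le_rpow_of_exponent_le
        (Nat.one_le_cast.mpr (by have := two_le_absNorm Q; omega)) (by push_cast; linarith)
    have h6 : ‖x s Q‖ ^ 2 * (1 - ‖x s Q‖)⁻¹ / 2 ≤ primeTerm 2 Q := by
      have := mul_le_mul h5 h4 (inv_nonneg.mpr (by linarith [hhalf Q])) (primeTerm_pos 2 Q).le
      linarith
    rw [Complex.add_re] at h2
    rw [Complex.neg_re]
    linarith [primeTerm_pos 2 Q]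
  -- split off the primes whose norm is not prime
  let S : Set (HeightOneSpectrum (𝓞 K)) := {Q | ¬ (Ideal.absNorm Q.asIdeal).Prime}
  have hsplit : ∑' Q : (Sᶜ : Set (HeightOneSpectrum (𝓞 K))), (x s Q).re ≤
      (∑' Q, (x s Q).re) + B₃ := by
    have hxr : Summable fun Q => (x s Q).re := (Complex.hasSum_re hx1.hasSum).summable
    have hdec : (∑' Q : S, (x s Q).re) + ∑' Q : (Sᶜ : Set (HeightOneSpectrum (𝓞 K))), (x s Q).re =
        ∑' Q, (x s Q).re := (hxr.subtype S).tsum_add_tsum_compl (hxr.subtype Sᶜ)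
    have : -B₃ ≤ ∑' Q : S, (x s Q).re := by
      rw [tsum_subtype S (fun Q => (x s Q).re), neg_le, ← tsum_neg]
      refine le_trans ?_ h3
      refine (hxr.indicator S).neg.tsum_le_tsum (fun Q => ?_)
        (summable_indicator_primeTerm hs S)
      by_cases hQ : Q ∈ S
      · rw [Set.indicator_of_mem hQ, Set.indicator_of_mem hQ]
        exact (neg_le_abs _).trans ((Complex.abs_re_le_norm _).trans (hnx Q))
      · rw [Set.indicator_of_notMem hQ, Set.indicator_of_notMem hQ, neg_zero]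
    linarith
  have htot : ∑' Q, (x s Q).re ≤ Real.log (max B₀ 1) +
      2 * ∑' Q : HeightOneSpectrum (𝓞 K), primeTerm 2 Q := by
    have h2s := (summable_primeTerm (K := K) (s := 2) (by norm_num)).mul_left 2
    have hL' := (Complex.hasSum_re hlog.hasSum)
    calc ∑' Q, (x s Q).re ≤ ∑' Q, ((-Complex.log (1 - x s Q)).re + 2 * primeTerm 2 Q) :=
          (Complex.hasSum_re hx1.hasSum).summable.tsum_le_tsum hterm (hL'.summable.add h2s)
      _ = (∑' Q, -Complex.log (1 - x s Q)).re + 2 * ∑' Q, primeTerm 2 Q := by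
          rw [hL'.summable.tsum_add h2s, tsum_mul_left, hL'.tsum_eq]
      _ ≤ _ := by linarith
  -- the primes of prime norm are counted by `idealCount`
  have hcount : GalRep.primeSum (fun p : Nat.Primes =>
      (GalRep.idealCount K p : ℝ) * (η ((p : ℕ) : ZMod m)).re) s =
      ∑' Q : (Sᶜ : Set (HeightOneSpectrum (𝓞 K))), (x s Q).re := by
    let π : (Sᶜ : Set (HeightOneSpectrum (𝓞 K))) → Nat.Primes := fun Q =>
      ⟨Ideal.absNorm Q.1.asIdeal, not_not.mp Q.2⟩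
    have hxr : Summable fun Q : (Sᶜ : Set (HeightOneSpectrum (𝓞 K))) => (x s Q).re :=
      (Complex.hasSum_re hx1.hasSum).summable.subtype _
    rw [← (Equiv.sigmaFiberEquiv π).tsum_eq]
    have hσ : Summable fun q ↦ (x s (Equiv.sigmaFiberEquiv π q : (Sᶜ : Set _))).re :=
      (Equiv.sigmaFiberEquiv π).summable_iff.mpr hxr
    rw [hσ.tsum_sigma, GalRep.primeSum]
    refine tsum_congr fun p => ?_
    let e' : {Q // π Q = p} ≃ {I : Ideal (𝓞 K) // Ideal.absNorm I = p} :=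
      { toFun := fun Q => ⟨Q.1.1.asIdeal, congrArg Subtype.val Q.2⟩
        invFun := fun I => ⟨⟨⟨I.1, Ideal.isPrime_of_irreducible_absNorm (by rw [I.2]; exact p.2),
            fun h => p.2.ne_zero (by rw [← I.2, h, Ideal.absNorm_bot])⟩,
          not_not.mpr (show (Ideal.absNorm I.1).Prime by rw [I.2]; exact p.2)⟩, Subtype.ext I.2⟩
        left_inv := fun Q => rfl
        right_inv := fun I => rfl }
    have hval : ∀ Q : {Q // π Q = p},
        (x s (Equiv.sigmaFiberEquiv π ⟨p, Q⟩ : (Sᶜ : Set _))).re =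
          (η ((p : ℕ) : ZMod m)).re * (p : ℝ) ^ (-s) := fun Q => by
      rw [Equiv.sigmaFiberEquiv_apply]
      simp only [x, Complex.mul_re, Complex.ofReal_re, Complex.ofReal_im, mul_zero, sub_zero,
        primeTerm, show Ideal.absNorm Q.1.1.asIdeal = (p : ℕ) from congrArg Subtype.val Q.2]
    have : Finite {I : Ideal (𝓞 K) // Ideal.absNorm I = p} :=
      (Ideal.finite_setOfPred_absNorm_eq (p : ℕ)).to_subtype
    have : Finite {Q // π Q = p} := Finite.of_equiv _ e'.symm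
    rw [tsum_congr hval, tsum_const, nsmul_eq_mul, Nat.card_congr e', GalRep.idealCount,
      mul_assoc]
  rw [hcount]
  linarith

end FermatAgent.DeligneSerre
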