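import Fermat.Agent.DeligneSerre.Chebotarev.CharBound
import Fermat.Agent.GalRep.Density.Frobenius
import Fermat.Agent.LT.ClassField.TwoAdic
import Fermat.Prelude.Def_GaloisRep_ComplexConjugation

/-!
# One crossed element

For a finite quotient `R : G_ℚ → Γ`, a character `χ` of `Γ` giving the action on `m`-th roots of
unity and `y ∈ Γ` such that `χ` is injective on `⟨y⟩` and no conjugate of complex conjugation lies in
`⟨y⟩`: the Frobenius elements conjugate to `y` or `y⁻¹` have the expected mass.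
-/

set_option autoImplicit false

noncomputable section

namespace FermatAgent.DeligneSerre

open Filter Topology Asymptotics NumberField
open FermatAgent.GalRep (primeSum idealCount primeSum_sub_isBigO primeSum_finset_sum
  primeSum_const_mul primeSum_idealCount_isBigO idealCount_prime_abs_le exists_finite_idealCount_eq
  card_conj_mem_eq exists_isFrobeniusAt_map_pow_eq)
open FermatAgent.LT.ClassField (modUnit modUnit_frobenius)
open scoped nonZeroDivisors Classical

local notation "Qb" => AlgebraicClosure ℚ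
local notation "GQ" => AlgebraicClosure ℚ ≃ₐ[ℚ] AlgebraicClosure ℚ

attribute [local instance] FermatAgent.RT.isGalois_algClosureRat

/-- A chosen place over a prime. -/
def placeOver (p : Nat.Primes) : ValuationSubring Qb :=
  (FermatAgent.RT.exists_place_isFrobeniusAt p.2).choose

/-- A chosen Frobenius at a prime. -/
def frobElt (p : Nat.Primes) : GQ :=
  (FermatAgent.RT.exists_place_isFrobeniusAt p.2).choose_spec.choose

theorem placeOver_liesOverPrime (p : Nat.Primes) : (placeOver p).LiesOverPrime p :=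
  (FermatAgent.RT.exists_place_isFrobeniusAt p.2).choose_spec.choose_spec.1

theorem isFrobeniusAt_frobElt (p : Nat.Primes) : (placeOver p).IsFrobeniusAt (frobElt p) p :=
  (FermatAgent.RT.exists_place_isFrobeniusAt p.2).choose_spec.choose_spec.2

variable {Γ : Type} [Group Γ] [Finite Γ] (R : GQ →* Γ)

/-- The number of `x` conjugating the Frobenius of `p` into `T`. -/
def conjCount (T : Set Γ) (p : Nat.Primes) : ℕ :=
  Nat.card {x : Γ // x⁻¹ * R (frobElt p) * x ∈ T}

theorem conjCount_le (T : Set Γ) (p : Nat.Primes) : conjCount R T p ≤ Nat.card Γ :=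
  Nat.card_le_card_of_injective _ Subtype.val_injective

theorem abs_conjCount_le (T : Set Γ) (p : Nat.Primes) : |(conjCount R T p : ℝ)| ≤ Nat.card Γ := by
  rw [Nat.abs_cast]
  exact Nat.cast_le.mpr (conjCount_le R T p)

variable {R}

theorem nat_card_preimage {A B : Type*} [Group A] [Group B] [Finite A] (f : A →* B)
    (hf : Function.Surjective f) (T : Set B) :
    Nat.card {a : A // f a ∈ T} = Nat.card f.ker * Nat.card T := by
  choose g hg using hf
  let e : {a : A // f a ∈ T} ≃ f.ker × T :=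
    { toFun := fun a => (⟨(g (f a.1))⁻¹ * a.1, by simp [MonoidHom.mem_ker, hg]⟩, ⟨f a.1, a.2⟩)
      invFun := fun q => ⟨g q.2 * q.1, by simp [MonoidHom.mem_ker.mp q.1.2, hg, q.2.2]⟩
      left_inv := fun a => Subtype.ext (by simp)
      right_inv := fun q => by
        have h : f (g q.2 * q.1) = q.2 := by simp [MonoidHom.mem_ker.mp q.1.2, hg]
        exact Prod.ext (Subtype.ext (by simp [h])) (Subtype.ext h) }
  rw [Nat.card_congr e, Nat.card_prod]

omit [Finite Γ] in
set_option synthInstance.maxHeartbeats 40000 in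
/-- The fixed field of a subgroup: its primes of norm `p` count the conjugates of Frobenius in
the subgroup, and it is totally complex when no conjugate of complex conjugation is in it. -/
theorem exists_fixedField_count (hR : Function.Surjective R)
    (hfin : GaloisFactorsThroughFiniteLevel R) (D : Subgroup Γ) :
    ∃ (E : IntermediateField ℚ Qb) (_ : NumberField E),
      ((∀ x : Γ, x⁻¹ * R complexConjugation * x ∉ D) → IsTotallyComplex E) ∧
      ∃ B : Set ℕ, B.Finite ∧ ∀ p : Nat.Primes, (p : ℕ) ∉ B → ∀ A : ValuationSubring Qb,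
        A.LiesOverPrime p → ∀ τ : GQ, A.IsFrobeniusAt τ p →
          Nat.card {x : Γ // x⁻¹ * R τ * x ∈ (D : Set Γ)} = Nat.card D * idealCount E p := by
  obtain ⟨L₀, hL₀, hfac⟩ := hfin
  let L := IntermediateField.normalClosure ℚ L₀ Qb
  have : Normal ℚ L := normalClosure.normal ℚ L₀ Qb
  have : Algebra.IsSeparable ℚ L := Algebra.IsSeparable.of_integral ℚ L
  have : IsGalois ℚ L := ⟨⟩
  let rl := AlgEquiv.restrictNormalHom L (F := ℚ) (K₁ := Qb)
  have hker : ∀ σ : GQ, rl σ = 1 → R σ = 1 := fun σ hσ => hfac σ fun x hx => by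
    have h1 := AlgEquiv.restrictNormal_commutes σ L ⟨x, IntermediateField.le_normalClosure L₀ hx⟩
    exact h1.symm.trans (congrArg (fun e : L ≃ₐ[ℚ] L =>
      (e ⟨x, IntermediateField.le_normalClosure L₀ hx⟩ : Qb)) hσ)
  let π : (L ≃ₐ[ℚ] L) →* Γ :=
    rl.liftOfSurjective (AlgEquiv.restrictNormalHom_surjective (F := ℚ) (K₁ := L) Qb)
      ⟨R, fun σ hσ => hker σ hσ⟩
  have hπ : ∀ σ, π (rl σ) = R σ := fun σ =>
    MonoidHom.liftOfRightInverse_comp_apply _ _ _ ⟨R, fun σ hσ => hker σ hσ⟩ σ
  have hπs : Function.Surjective π := fun g => by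
    obtain ⟨σ, rfl⟩ := hR g
    exact ⟨rl σ, hπ σ⟩
  let D' : Subgroup (L ≃ₐ[ℚ] L) := D.comap π
  let E₀ : IntermediateField ℚ L := IntermediateField.fixedField D'
  let E : IntermediateField ℚ Qb := IntermediateField.lift E₀
  let i : E₀ ≃ₐ[ℚ] E := IntermediateField.liftAlgEquiv E₀
  have : FiniteDimensional ℚ E := Module.Finite.equiv i.toLinearEquiv
  have : NumberField E := ⟨⟩
  refine ⟨E, inferInstance, fun hc => ?_, ?_⟩
  · refine ⟨fun w => InfinitePlace.not_isReal_iff_isComplex.mp fun hw => ?_⟩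
    rw [InfinitePlace.isReal_iff] at hw
    let φ := w.embedding
    let : Algebra Qb ℂ := complexEmbedding.toRingHom.toAlgebra
    have : IsScalarTower ℚ Qb ℂ := IsScalarTower.of_algebraMap_eq' (Subsingleton.elim _ _)
    let : Algebra E ℂ := φ.toAlgebra
    have : Algebra.IsAlgebraic E Qb := Algebra.IsAlgebraic.tower_top (K := ℚ) E
    let Φ : Qb →ₐ[E] ℂ := IsAlgClosed.lift
    let g : GQ := Φ.toRingHom.toRatAlgHom.restrictNormal' Qb
    have hg : ∀ e : E, complexEmbedding (g (e : Qb)) = φ e := fun e =>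
      (Φ.toRingHom.toRatAlgHom.restrictNormal_commutes Qb (e : Qb)).trans (Φ.commutes e)
    have hfix : ∀ e : E, complexConjugation (g (e : Qb)) = g e := fun e =>
      complexEmbedding.toRingHom.injective (by
        show complexEmbedding (complexConjugation (g (e : Qb))) = complexEmbedding (g (e : Qb))
        rw [complexEmbedding_complexConjugation, hg]
        exact RingHom.congr_fun (ComplexEmbedding.isReal_iff.mp hw) e)
    refine hc (R g) ?_
    have hgfix : ∀ e : E, (g⁻¹ * complexConjugation * g) (e : Qb) = e := fun e => by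
      rw [AlgEquiv.mul_apply, AlgEquiv.mul_apply, hfix, ← AlgEquiv.mul_apply, inv_mul_cancel,
        AlgEquiv.one_apply]
    have hD : rl (g⁻¹ * complexConjugation * g) ∈ D' := by
      rw [← IntermediateField.fixingSubgroup_fixedField D',
        IntermediateField.mem_fixingSubgroup_iff]
      intro y hy
      apply Subtype.ext
      exact (AlgEquiv.restrictNormal_commutes _ L y).trans
        (hgfix ⟨(y : Qb), (IntermediateField.mem_lift _).mpr hy⟩)
    have h2 : π (rl (g⁻¹ * complexConjugation * g)) ∈ D := hD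
    rwa [hπ, map_mul, map_mul, map_inv] at h2
  · obtain ⟨B, hB, hBeq⟩ := exists_finite_idealCount_eq E
    refine ⟨B, hB, fun p hp A hA τ hτ => ?_⟩
    have h1 := card_conj_mem_eq L D' τ
    have h2 : Nat.card {e : E₀ →ₐ[ℚ] Qb // τ.toAlgHom.comp e = e} =
        Nat.card {e : E →ₐ[ℚ] Qb // τ.toAlgHom.comp e = e} := by
      refine Nat.card_congr ((Equiv.subtypeEquiv
        { toFun := fun e => e.comp i.symm.toAlgHom
          invFun := fun e => e.comp i.toAlgHom
          left_inv := fun e => AlgHom.ext fun x => by simp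
          right_inv := fun e => AlgHom.ext fun x => by simp }) fun e => ?_)
      refine ⟨fun h => AlgHom.ext fun x => ?_, fun h => AlgHom.ext fun x => ?_⟩
      · simpa using DFunLike.congr_fun h (i.symm x)
      · simpa using DFunLike.congr_fun h (i x)
    rw [h2, ← hBeq p p.2 hp A hA τ hτ] at h1
    have h3 : Nat.card {x : L ≃ₐ[ℚ] L // x⁻¹ * rl τ * x ∈ D'} =
        Nat.card π.ker * Nat.card {x : Γ // x⁻¹ * R τ * x ∈ (D : Set Γ)} := by
      refine Eq.trans ?_ (nat_card_preimage π hπs {z : Γ | z⁻¹ * R τ * z ∈ D})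
      refine Nat.card_congr (Equiv.subtypeEquivRight fun x => ?_)
      show π (x⁻¹ * rl τ * x) ∈ D ↔ (π x)⁻¹ * R τ * π x ∈ D
      rw [map_mul, map_mul, map_inv, hπ]
    have h4 : Nat.card D' = Nat.card π.ker * Nat.card D := nat_card_preimage π hπs (D : Set Γ)
    rw [h3, h4, mul_assoc] at h1
    exact Nat.eq_of_mul_eq_mul_left Nat.card_pos h1

/-- `f s = c (-log (s - 1)) + O(1)`. -/
def LogAsymp (f : ℝ → ℝ) (c : ℝ) : Prop :=
  (fun s => f s + c * Real.log (s - 1)) =O[𝓝[>] (1 : ℝ)] (fun _ => (1 : ℝ))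

theorem LogAsymp.congr_sum {b b' : Nat.Primes → ℝ} {c C : ℝ} (h : LogAsymp (primeSum b) c)
    (hb : ∀ p, |b p| ≤ C) (hb' : ∀ p, |b' p| ≤ C) {Bad : Set ℕ} (hBad : Bad.Finite)
    (he : ∀ p : Nat.Primes, (p : ℕ) ∉ Bad → b p = b' p) : LogAsymp (primeSum b') c := by
  have hf : ({p : Nat.Primes | b' p ≠ b p}).Finite :=
    (hBad.preimage Subtype.val_injective.injOn).subset fun p hp => by
      by_contra hn
      exact hp (he p hn).symm
  exact ((primeSum_sub_isBigO hb' hb hf).add h).congr_left fun s => by ring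

theorem LogAsymp.const_mul {f : ℝ → ℝ} {c : ℝ} (h : LogAsymp f c) (a : ℝ) :
    LogAsymp (fun s => a * f s) (a * c) :=
  (h.const_mul_left a).congr_left fun s => by ring

theorem LogAsymp.fun_sum {ι : Type*} (t : Finset ι) {f : ι → ℝ → ℝ} {c : ι → ℝ}
    (h : ∀ i ∈ t, LogAsymp (f i) (c i)) :
    LogAsymp (fun s => ∑ i ∈ t, f i s) (∑ i ∈ t, c i) :=
  (IsBigO.fun_sum h).congr_left fun s => by rw [Finset.sum_add_distrib, Finset.sum_mul]

theorem LogAsymp.congr' {f g : ℝ → ℝ} {c : ℝ} (h : LogAsymp f c) (e : f =ᶠ[𝓝[>] 1] g) :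
    LogAsymp g c :=
  IsBigO.congr' h (e.mono fun s hs => by simp only; rw [hs]) EventuallyEq.rfl

set_option linter.unnecessarySeqFocus false in
/-- **The crossed element**: Frobenius elements conjugate to `y` or `y⁻¹`. -/
theorem logAsymp_conjCount (hR : Function.Surjective R) (hfin : GaloisFactorsThroughFiniteLevel R)
    {m : ℕ} [NeZero m] (χ : Γ →* (ZMod m)ˣ) (hχ : ∀ σ : GQ, χ (R σ) = modUnit m σ) (y : Γ)
    (hy : orderOf (χ y) = orderOf y)
    (hc : ∀ x : Γ, x⁻¹ * R complexConjugation * x ∉ Subgroup.zpowers y) :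
    LogAsymp (primeSum fun p => (conjCount R {y} p : ℝ) + (conjCount R {y⁻¹} p : ℝ)) 2 := by
  set D := Subgroup.zpowers y with hDdef
  set u := χ y
  obtain ⟨E, _, htc, BadE, hBadE, hE⟩ := exists_fixedField_count hR hfin D
  have := htc hc
  obtain ⟨M, _, -, BadM, hBadM, hM⟩ := exists_fixedField_count hR hfin (⊥ : Subgroup Γ)
  set N := orderOf y
  have hN0 : 0 < N := orderOf_pos y
  have hND : Nat.card D = N := Nat.card_zpowers y
  let Bad : Set ℕ := BadE ∪ BadM ∪ {p | p ∣ m}
  have hBad : Bad.Finite := (hBadE.union hBadM).union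
    (Set.Finite.subset m.divisors.finite_toSet fun p hp =>
      Nat.mem_divisors.mpr ⟨hp, NeZero.ne m⟩)
  -- good primes
  have hcop : ∀ p : Nat.Primes, (p : ℕ) ∉ Bad → (p : ℕ).Coprime m := fun p hp =>
    (Nat.Prime.coprime_iff_not_dvd p.2).mpr fun h => hp (Or.inr h)
  have hchi : ∀ (p : Nat.Primes) (x : Γ), (p : ℕ) ∉ Bad →
      ((χ (x⁻¹ * R (frobElt p) * x) : (ZMod m)ˣ) : ZMod m) = ((p : ℕ) : ZMod m) := fun p x hp => by
    rw [map_mul, map_mul, mul_comm, ← mul_assoc, map_inv, mul_inv_cancel, one_mul, hχ]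
    exact modUnit_frobenius (hcop p hp) (placeOver_liesOverPrime p) (isFrobeniusAt_frobElt p)
  have hinj : ∀ z ∈ D, ∀ z' ∈ D, χ z = χ z' → z = z' := by
    intro z hz z' hz' h
    obtain ⟨i, rfl⟩ := Subgroup.mem_zpowers_iff.mp hz
    obtain ⟨j, rfl⟩ := Subgroup.mem_zpowers_iff.mp hz'
    rw [map_zpow, map_zpow, zpow_eq_zpow_iff_modEq] at h
    rw [zpow_eq_zpow_iff_modEq]
    rwa [hy] at h
  -- conjugates of Frobenius in `D` with given value of the character
  have hsplit : ∀ (p : Nat.Primes) (z : Γ), (p : ℕ) ∉ Bad → z ∈ D →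
      (conjCount R {z} p : ℝ) =
        N * (idealCount E p * if ((p : ℕ) : ZMod m) = ((χ z : (ZMod m)ˣ) : ZMod m) then 1 else 0) := by
    intro p z hp hz
    rw [← mul_assoc, ← Nat.cast_mul, ← hND, ← hE p (fun h => hp (Or.inl (Or.inl h))) _ (placeOver_liesOverPrime p) _
      (isFrobeniusAt_frobElt p)]
    split_ifs with h
    · rw [mul_one, Nat.cast_inj]
      refine Nat.card_congr (Equiv.subtypeEquivRight fun x => ⟨fun hx => ?_, fun hx => ?_⟩)
      · rw [Set.mem_singleton_iff] at hx
        rw [hx]; exact hz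
      · exact hinj _ hx _ hz (Units.ext ((hchi p x hp).trans h))
    · rw [mul_zero, Nat.cast_eq_zero, conjCount, Nat.card_eq_zero]
      exact Or.inl ⟨fun ⟨x, hx⟩ => h (by rw [← hchi p x hp, Set.mem_singleton_iff.mp hx])⟩
  -- characters
  let a : Nat.Primes → ℝ := fun p => (idealCount E p : ℝ)
  let CE : ℝ := (2 : ℝ) ^ Module.finrank ℤ (𝓞 E)
  have ha : ∀ p, |a p| ≤ CE := fun p => idealCount_prime_abs_le E p
  have hre : ∀ (η : DirichletCharacter ℂ m) (x : ZMod m), |(η x).re| ≤ 1 := fun η x =>
    (Complex.abs_re_le_norm _).trans (η.norm_le_one x)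
  have hab : ∀ (η : DirichletCharacter ℂ m) p, |a p * (η ((p : ℕ) : ZMod m)).re| ≤ CE := fun η p => by
    rw [abs_mul]
    exact (mul_le_of_le_one_right (abs_nonneg _) (hre η _)).trans (ha p)
  let F : DirichletCharacter ℂ m → ℝ → ℝ := fun η =>
    primeSum fun p => a p * (η ((p : ℕ) : ZMod m)).re
  have haE : LogAsymp (primeSum a) 1 :=
    (primeSum_idealCount_isBigO E).congr_left fun s => by rw [one_mul]
  have hF1 : ∀ η : DirichletCharacter ℂ m, η (u : ZMod m) = 1 → LogAsymp (F η) 1 := by
    intro η hη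
    refine haE.congr_sum ha (hab η) hBad fun p hp => ?_
    rcases Nat.eq_zero_or_pos (idealCount E p) with h0 | h0
    · simp [a, h0]
    · have h1 : 0 < conjCount R (D : Set Γ) p := by
        rw [conjCount, hE p (fun h => hp (Or.inl (Or.inl h))) _ (placeOver_liesOverPrime p) _
          (isFrobeniusAt_frobElt p)]
        exact Nat.mul_pos Nat.card_pos h0
      obtain ⟨⟨x, hx⟩⟩ := (Nat.card_pos_iff.mp h1).1
      obtain ⟨j, hj⟩ := (mem_powers_iff_mem_zpowers (x := y)).mpr hx
      have : ((p : ℕ) : ZMod m) = (u : ZMod m) ^ j := by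
        rw [← hchi p x hp, ← Units.val_pow_eq_pow_val, ← map_pow]
        exact congrArg (fun g => ((χ g : (ZMod m)ˣ) : ZMod m)) hj.symm
      rw [this, map_pow, hη, one_pow, Complex.one_re, mul_one]
  -- the other characters: bounded above
  have hFle : ∀ η : DirichletCharacter ℂ m, η (u : ZMod m) ≠ 1 →
      ∃ B : ℝ, ∀ᶠ s in 𝓝[>] (1 : ℝ), F η s ≤ B := by
    intro η hη
    obtain ⟨p, hp, hpS, A, hA, τ, hτ, i, k, hi, hk⟩ :=
      exists_isFrobeniusAt_map_pow_eq R hfin (Function.surjInv hR y) hBad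
    rw [map_pow, Function.surjInv_eq hR] at hi hk
    have hpu : ((p : ℕ) : ZMod m) = (u : ZMod m) ^ k := by
      rw [← modUnit_frobenius ((Nat.Prime.coprime_iff_not_dvd hp).mpr fun h => hpS (Or.inr h)) hA
        hτ, ← hχ, ← hk, map_pow, Units.val_pow_eq_pow_val]
    have hηp : η ((p : ℕ) : ZMod m) ≠ 1 := fun h1 => hη (by
      have : (u : ZMod m) = ((p : ℕ) : ZMod m) ^ i := by
        rw [hpu, ← pow_mul, ← Units.val_pow_eq_pow_val, ← map_pow, pow_mul, hk, hi]
      rw [this, map_pow, h1, one_pow])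
    -- a prime ideal of norm `p`
    set P : Nat.Primes := ⟨p, hp⟩
    have hne : idealCount E P ≠ 0 := by
      intro h0
      have h1 := hE P (fun h => hpS (Or.inl (Or.inl h))) A hA τ hτ
      rw [h0, mul_zero, Nat.card_eq_zero] at h1
      rcases h1 with h1 | h1
      · refine h1.false ⟨1, ?_⟩
        rw [inv_one, one_mul, mul_one, ← hk]
        exact Subgroup.pow_mem _ (Subgroup.mem_zpowers y) k
      · exact not_finite {x : Γ // x⁻¹ * R τ * x ∈ (D : Set Γ)}
    obtain ⟨⟨I, hI⟩⟩ := (Nat.card_pos_iff.mp (Nat.pos_of_ne_zero hne)).1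
    have hI0 : I ∈ (Ideal (𝓞 E))⁰ := mem_nonZeroDivisors_of_ne_zero fun h => hp.ne_zero (by
      have := hI
      rw [h, Ideal.zero_eq_bot, Ideal.absNorm_bot] at this
      exact this.symm)
    refine exists_primeSum_char_le η (P := ⟨I, hI0⟩) ?_ ?_
    · show IsUnit ((Ideal.absNorm I : ℕ) : ZMod m)
      rw [hI]
      show IsUnit ((p : ℕ) : ZMod m)
      rw [hpu]
      exact (Units.isUnit u).pow k
    · show η ((Ideal.absNorm I : ℕ) : ZMod m) ≠ 1
      rw [hI]
      exact hηp
  -- orthogonality
  have horth : ∀ x : ZMod m, ∑ η : DirichletCharacter ℂ m, (η x).re =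
      if x = 1 then (m.totient : ℝ) else 0 := fun x => by
    rw [← Complex.re_sum, DirichletCharacter.sum_characters_eq ℂ x]
    split_ifs <;> simp
  have hφ : (0 : ℝ) < m.totient := Nat.cast_pos.mpr (Nat.totient_pos.mpr (NeZero.pos m))
  -- the total
  have htot : LogAsymp (fun s => ∑ η : DirichletCharacter ℂ m, F η s)
      ((m.totient : ℝ) / N) := by
    have hM1 : LogAsymp (primeSum fun p => (m.totient : ℝ) / N * idealCount M p)
        ((m.totient : ℝ) / N) := by
      have h0 : LogAsymp (primeSum fun p => (idealCount M p : ℝ)) 1 :=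
        (primeSum_idealCount_isBigO M).congr_left fun s => by rw [one_mul]
      have h1 := LogAsymp.congr' (g := primeSum fun p => (m.totient : ℝ) / N * idealCount M p)
        (LogAsymp.const_mul h0 ((m.totient : ℝ) / N))
        (Eventually.of_forall fun s => (primeSum_const_mul _ _ s).symm)
      rwa [mul_one] at h1
    let C₁ : ℝ := max ((m.totient : ℝ) / N * (2 : ℝ) ^ Module.finrank ℤ (𝓞 M)) (CE * m.totient)
    have h2 : LogAsymp (primeSum fun p =>
        a p * if ((p : ℕ) : ZMod m) = 1 then (m.totient : ℝ) else 0) ((m.totient : ℝ) / N) := by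
      refine hM1.congr_sum (C := C₁) (fun p => ?_) (fun p => ?_) hBad fun p hp => ?_
      · rw [abs_mul, abs_of_nonneg (by positivity : (0 : ℝ) ≤ (m.totient : ℝ) / N)]
        exact (mul_le_mul_of_nonneg_left (idealCount_prime_abs_le M p) (by positivity)).trans
          (le_max_left _ _)
      · rw [abs_mul]
        refine (mul_le_mul (ha p) ?_ (abs_nonneg _) (by positivity)).trans (le_max_right _ _)
        split_ifs <;> simp
      · have h1 := hsplit p 1 hp (one_mem D)
        rw [map_one, Units.val_one] at h1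
        have h3 : (conjCount R {1} p : ℝ) = idealCount M p := by
          rw [← Subgroup.coe_bot, conjCount, hM p (fun h => hp (Or.inl (Or.inr h))) _
            (placeOver_liesOverPrime p) _ (isFrobeniusAt_frobElt p), Subgroup.card_bot, one_mul]
        rw [h3] at h1
        rw [h1]
        have : (N : ℝ) ≠ 0 := Nat.cast_ne_zero.mpr hN0.ne'
        simp only [a]
        split_ifs <;> field_simp <;> ring
    refine h2.congr' ?_
    filter_upwards [self_mem_nhdsWithin] with s (hs : 1 < s)
    rw [← primeSum_finset_sum Finset.univ (C := CE) (fun η _ p => hab η p) hs]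
    exact congrArg (fun b => primeSum b s) (funext fun p => by rw [← Finset.mul_sum, horth])
  -- the number of characters trivial at `u`
  set K := Finset.univ.filter fun η : DirichletCharacter ℂ m => η (u : ZMod m) = 1
  have hkN : (K.card : ℝ) = (m.totient : ℝ) / N := by
    have hN : (u : ZMod m) ^ N = 1 := by
      rw [← Units.val_pow_eq_pow_val, ← map_pow, pow_orderOf_eq_one, map_one, Units.val_one]
    have h1 : ∀ η : DirichletCharacter ℂ m, ∑ j ∈ Finset.range N, η ((u : ZMod m) ^ j) =
        if η (u : ZMod m) = 1 then (N : ℂ) else 0 := fun η => by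
      simp only [map_pow]
      split_ifs with h
      · simp [h]
      · have := geom_sum_mul (η (u : ZMod m)) N
        rw [← map_pow, hN, map_one, sub_self] at this
        exact (mul_eq_zero.mp this).resolve_right (sub_ne_zero.mpr h)
    have h2 : ∑ j ∈ Finset.range N, ∑ η : DirichletCharacter ℂ m, η ((u : ZMod m) ^ j) =
        (m.totient : ℂ) := by
      rw [Finset.sum_eq_single 0]
      · rw [pow_zero, DirichletCharacter.sum_characters_eq, if_pos rfl]
      · intro j hj hj0
        rw [DirichletCharacter.sum_characters_eq, if_neg]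
        intro h
        rw [← Units.val_pow_eq_pow_val, Units.val_eq_one, ← orderOf_dvd_iff_pow_eq_one, hy] at h
        exact (Nat.pos_of_ne_zero hj0).ne' (Nat.eq_zero_of_dvd_of_lt h (Finset.mem_range.mp hj))
      · intro h
        exact absurd (Finset.mem_range.mpr hN0) h
    rw [Finset.sum_comm, Finset.sum_congr rfl (fun η _ => h1 η), ← Finset.sum_filter,
      Finset.sum_const, nsmul_eq_mul] at h2
    rw [eq_div_iff (Nat.cast_ne_zero.mpr hN0.ne')]
    exact_mod_cast h2
  -- every character
  have hKsum : LogAsymp (fun s => ∑ η ∈ K, F η s) (K.card : ℝ) := by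
    simpa using LogAsymp.fun_sum K fun η hη => hF1 η (Finset.mem_filter.mp hη).2
  have hrest : (fun s => ∑ η ∈ Kᶜ, F η s) =O[𝓝[>] (1 : ℝ)] (fun _ => (1 : ℝ)) :=
    (htot.sub hKsum).congr_left fun s => by
      rw [hkN]
      simp only
      rw [← Finset.sum_add_sum_compl K fun η => F η s]; ring
  have hFη : ∀ η : DirichletCharacter ℂ m,
      LogAsymp (F η) (if η (u : ZMod m) = 1 then 1 else 0) := by
    intro η
    split_ifs with h
    · exact hF1 η h
    have hB : ∀ η' ∈ Kᶜ, ∃ B : ℝ, ∀ᶠ s in 𝓝[>] (1 : ℝ), F η' s ≤ B := fun η' hη' =>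
      hFle η' fun h' => (Finset.mem_compl.mp hη') (Finset.mem_filter.mpr ⟨Finset.mem_univ _, h'⟩)
    choose! B hB using hB
    obtain ⟨c, hc'⟩ := hrest.bound
    refine IsBigO.of_bound (|c| + ∑ η' ∈ Kᶜ, |B η'|) ?_
    filter_upwards [hc', (eventually_all_finset Kᶜ).mpr hB] with s hs hBs
    simp only [norm_one, mul_one, Real.norm_eq_abs] at hs ⊢
    rw [zero_mul, add_zero]
    have hηK : η ∈ Kᶜ := Finset.mem_compl.mpr fun h' => h (Finset.mem_filter.mp h').2
    rw [← Finset.add_sum_erase _ _ hηK, abs_le] at hs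
    have h1 : ∑ η' ∈ Kᶜ.erase η, F η' s ≤ ∑ η' ∈ Kᶜ.erase η, |B η'| :=
      Finset.sum_le_sum fun η' h' => (hBs η' (Finset.mem_of_mem_erase h')).trans (le_abs_self _)
    rw [← Finset.add_sum_erase _ (fun η' => |B η'|) hηK, abs_le]
    have h2 := hBs η hηK
    have h3 : 0 ≤ ∑ η' ∈ Kᶜ.erase η, |B η'| := Finset.sum_nonneg fun _ _ => abs_nonneg _
    constructor <;> linarith [abs_nonneg (B η), le_abs_self (B η), le_abs_self c]
  -- recombine
  have hcomb : LogAsymp (fun s => ∑ η : DirichletCharacter ℂ m,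
      2 * (N : ℝ) * (η (u : ZMod m)).re / m.totient * F η s) 2 := by
    have h1 := LogAsymp.fun_sum Finset.univ (f := fun η s =>
      2 * (N : ℝ) * (η (u : ZMod m)).re / m.totient * F η s) fun η _ => (hFη η).const_mul _
    refine h1.congr_left fun s => ?_
    rw [show ∑ η : DirichletCharacter ℂ m, 2 * (N : ℝ) * (η (u : ZMod m)).re / m.totient *
        (if η (u : ZMod m) = 1 then 1 else 0) = 2 by
      simp only [mul_ite, mul_one, mul_zero]
      rw [← Finset.sum_filter, Finset.sum_congr rfl (g := fun _ => 2 * (N : ℝ) / m.totient)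
        (fun η hη => by rw [(Finset.mem_filter.mp hη).2, Complex.one_re, mul_one]),
        Finset.sum_const, nsmul_eq_mul, hkN]
      field_simp]
  let C₂ : ℝ := 2 * (Nat.card Γ : ℝ) + 2 * N * CE
  have hbound : ∀ p, |∑ η : DirichletCharacter ℂ m, 2 * (N : ℝ) * (η (u : ZMod m)).re / m.totient *
      (a p * (η ((p : ℕ) : ZMod m)).re)| ≤ C₂ := fun p => by
    refine (Finset.abs_sum_le_sum_abs _ _).trans ((Finset.sum_le_sum
      (g := fun _ => 2 * (N : ℝ) / m.totient * CE) fun η _ => ?_).trans ?_)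
    · rw [abs_mul, abs_div, abs_mul, Nat.abs_cast,
        abs_of_nonneg (by positivity : (0 : ℝ) ≤ 2 * (N : ℝ))]
      refine mul_le_mul ?_ (hab η p) (abs_nonneg _) (by positivity)
      rw [div_le_div_iff_of_pos_right hφ]
      exact mul_le_of_le_one_right (by positivity) (hre η _)
    · rw [Finset.sum_const, Finset.card_univ, nsmul_eq_mul, ← Nat.card_eq_fintype_card,
        DirichletCharacter.card_eq_totient_of_hasEnoughRootsOfUnity ℂ m, ← mul_assoc,
        mul_div_cancel₀ _ hφ.ne']
      exact le_add_of_nonneg_left (by positivity)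
  refine ((hcomb.congr' ?_ :
      LogAsymp (primeSum fun p => ∑ η : DirichletCharacter ℂ m,
        2 * (N : ℝ) * (η (u : ZMod m)).re / m.totient * (a p * (η ((p : ℕ) : ZMod m)).re)) 2)
      ).congr_sum (C := C₂) hbound (fun p => ?_) hBad fun p hp => ?_
  · filter_upwards [self_mem_nhdsWithin] with s (hs : 1 < s)
    rw [primeSum_finset_sum Finset.univ (C := 2 * (N : ℝ) / m.totient * CE)
      (fun η _ p => ?_) hs]
    · exact Finset.sum_congr rfl fun η _ => (primeSum_const_mul _ _ s).symm
    · rw [abs_mul, abs_div, abs_mul, Nat.abs_cast,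
        abs_of_nonneg (by positivity : (0 : ℝ) ≤ 2 * (N : ℝ))]
      refine mul_le_mul ?_ (hab η p) (abs_nonneg _) (by positivity)
      rw [div_le_div_iff_of_pos_right hφ]
      exact mul_le_of_le_one_right (by positivity) (hre η _)
  · refine (abs_add_le _ _).trans ((add_le_add (abs_conjCount_le R _ p)
      (abs_conjCount_le R _ p)).trans ?_)
    rw [← two_mul]
    exact le_add_of_nonneg_right (by positivity)
  · rw [hsplit p y hp (Subgroup.mem_zpowers y), hsplit p y⁻¹ hp (inv_mem (Subgroup.mem_zpowers y))]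
    set x : ZMod m := ((p : ℕ) : ZMod m)
    have huu : IsUnit x := by
      rw [ZMod.isUnit_iff_coprime]
      exact hcop p hp
    have key : ∀ η : DirichletCharacter ℂ m, 2 * ((η (u : ZMod m)).re * (η x).re) =
        (η ((u⁻¹ : (ZMod m)ˣ) * x : ZMod m)).re + (η ((u : ZMod m) * x)).re := fun η => by
      have hinv : η ((u⁻¹ : (ZMod m)ˣ) : ZMod m) = starRingEnd ℂ (η (u : ZMod m)) := by
        rw [← Complex.inv_eq_conj (η.unit_norm_eq_one u)]
        refine eq_inv_of_mul_eq_one_left ?_
        rw [← map_mul, Units.inv_mul, map_one]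
      rw [map_mul, map_mul, hinv, Complex.mul_re, Complex.mul_re, Complex.conj_re, Complex.conj_im]
      ring
    have hsum : ∑ η : DirichletCharacter ℂ m, (η (u : ZMod m)).re * (η x).re =
        (m.totient : ℝ) / 2 * ((if x = (u : ZMod m) then 1 else 0) +
          (if x = ((u⁻¹ : (ZMod m)ˣ) : ZMod m) then 1 else 0)) := by
      have h := Finset.sum_congr rfl (s₁ := (Finset.univ : Finset (DirichletCharacter ℂ m)))
        fun η _ => key η
      rw [← Finset.mul_sum, Finset.sum_add_distrib, horth, horth] at h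
      have hiff : ((u : ZMod m) * x = 1) ↔ x = ((u⁻¹ : (ZMod m)ˣ) : ZMod m) :=
        (Units.mul_eq_one_iff_inv_eq).trans eq_comm
      simp only [Units.inv_mul_eq_iff_eq_mul, mul_one, hiff] at h
      split_ifs at h ⊢ <;> linarith
    rw [show ∑ η : DirichletCharacter ℂ m, 2 * (N : ℝ) * (η (u : ZMod m)).re / m.totient *
        (a p * (η x).re) = 2 * (N : ℝ) * a p / m.totient *
        ∑ η : DirichletCharacter ℂ m, (η (u : ZMod m)).re * (η x).re by
      rw [Finset.mul_sum]; exact Finset.sum_congr rfl fun η _ => by ring, hsum, map_inv]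
    field_simp
    ring

end FermatAgent.DeligneSerre
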