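import Fermat.Agent.CFT.Density

/-!
# Weighted lattice sums twisted by a character of the norm

For a number field whose norm is positive, `η (N I)` for `I = (a) J⁻¹` is a periodic function of
`a ∈ J`, so the twisted class series is a multiple of the plain lattice sum up to a bounded error.
-/

set_option autoImplicit false

noncomputable section

namespace FermatAgent.DeligneSerre

open NumberField Filter Topology FermatAgent.CFT
open scoped nonZeroDivisors Classical

variable {K : Type*} [Field K] [NumberField K]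

/-- The norm is positive when there are no real embeddings. -/
theorem norm_pos_of_isTotallyComplex [IsTotallyComplex K] {x : K} (hx : x ≠ 0) :
    0 < Algebra.norm ℚ x := by
  have key : ((Algebra.norm ℚ x : ℚ) : ℂ) = ((|Algebra.norm ℚ x| : ℚ) : ℂ) := by
    rw [← Complex.ofReal_ratCast |Algebra.norm ℚ x|, Rat.cast_abs, ← Rat.cast_abs,
      ← InfinitePlace.prod_eq_abs_norm, ← eq_ratCast (algebraMap ℚ ℂ),
      Algebra.norm_eq_prod_embeddings, Complex.ofReal_prod,
      ← Fintype.prod_equiv (RingHom.equivRatAlgHom K ℂ) (fun f => f x) (fun φ => φ x)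
        fun _ => by simp [RingHom.equivRatAlgHom_apply],
      ← Finset.prod_fiberwise Finset.univ InfinitePlace.mk (fun φ : K →+* ℂ => φ x)]
    refine Finset.prod_congr rfl fun w _ => ?_
    have hne : ComplexEmbedding.conjugate w.embedding ≠ w.embedding := fun h =>
      IsTotallyComplex.complexEmbedding_not_isReal w.embedding h
    have hfib : ({φ | InfinitePlace.mk φ = w} : Finset (K →+* ℂ)) =
        {w.embedding, ComplexEmbedding.conjugate w.embedding} := by
      ext φ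
      simp only [Finset.mem_filter, Finset.mem_univ, true_and, Finset.mem_insert,
        Finset.mem_singleton]
      conv_lhs => rw [← InfinitePlace.mk_embedding w, InfinitePlace.mk_eq_iff]
      refine or_congr Iff.rfl ⟨fun h => ?_, fun h => ?_⟩
      · rw [← h]; ext z; simp [ComplexEmbedding.conjugate]
      · rw [h]; ext z; simp [ComplexEmbedding.conjugate]
    rw [hfib, Finset.prod_pair hne.symm, ComplexEmbedding.conjugate_coe_eq, Complex.mul_conj,
      IsTotallyComplex.mult_eq, Complex.normSq_eq_norm_sq, InfinitePlace.norm_embedding_eq]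
  have h : Algebra.norm ℚ x = |Algebra.norm ℚ x| := by exact_mod_cast key
  rw [h]
  exact abs_pos.mpr (Algebra.norm_ne_zero_iff.mpr hx)

/-- A bounded periodic weight: the lattice sum is the mean value times the plain one. -/
theorem exists_periodic_bound (J : Ideal (𝓞 K)) (hJ : J ≠ ⊥) (g : 𝓞 K → ℂ) {B₀ : ℝ}
    (hg : ∀ a, ‖g a‖ ≤ B₀) (hper : ∀ a b, b ∈ J → g (a + b) = g a) :
    ∃ B : ℝ, ∀ s : ℝ, 1 < s → s ≤ 2 →
      ‖(∑' a : 𝓞 K, g a * (intWeight s a : ℂ)) -
        ((∑ᶠ q : 𝓞 K ⧸ J.toAddSubgroup, g q.out) / (Ideal.absNorm J : ℂ)) *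
          ((∑' a : 𝓞 K, intWeight s a : ℝ) : ℂ)‖ ≤ B := by
  let H : AddSubgroup (𝓞 K) := J.toAddSubgroup
  have : Finite (𝓞 K ⧸ J) := Ideal.finiteQuotientOfFreeOfNeBot J hJ
  have : Finite (𝓞 K ⧸ H) := ‹Finite (𝓞 K ⧸ J)›
  let _ : Fintype (𝓞 K ⧸ H) := Fintype.ofFinite _
  choose B hB using fun q : 𝓞 K ⧸ H ↦ exists_translate_bound J q.out
  obtain ⟨B₁, hB₁⟩ := exists_latticeSum_bound (⟨J, mem_nonZeroDivisors_of_ne_zero hJ⟩ : (Ideal (𝓞 K))⁰)
  set n : ℝ := (Ideal.absNorm J : ℝ)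
  have hn : (1 : ℝ) ≤ n := Nat.one_le_cast.mpr
    (Nat.one_le_iff_ne_zero.mpr fun h => hJ (Ideal.absNorm_eq_zero_iff.mp h))
  refine ⟨∑ q, B₀ * (|B q| + |B₁| / n), fun s hs₁ hs₂ ↦ ?_⟩
  let e : (𝓞 K ⧸ H) × J ≃ 𝓞 K :=
    { toFun := fun p ↦ (p.2 : 𝓞 K) + p.1.out
      invFun := fun x ↦ (QuotientAddGroup.mk x, ⟨x - (QuotientAddGroup.mk x : 𝓞 K ⧸ H).out,
        (QuotientAddGroup.eq_iff_sub_mem (N := H)).mp (QuotientAddGroup.out_eq' _).symm⟩)
      left_inv := fun p ↦ by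
        have h1 : (QuotientAddGroup.mk ((p.2 : 𝓞 K) + p.1.out) : 𝓞 K ⧸ H) = p.1 := by
          rw [QuotientAddGroup.mk_add, QuotientAddGroup.out_eq',
            (QuotientAddGroup.eq_zero_iff _).mpr p.2.2, zero_add]
        refine Prod.ext h1 (Subtype.ext ?_)
        simp only [h1, add_sub_cancel_right]
      right_inv := fun x ↦ sub_add_cancel _ _ }
  have hsum : Summable fun a : 𝓞 K => g a * (intWeight s a : ℂ) :=
    Summable.of_norm_bounded ((summable_intWeight hs₁).mul_left B₀) fun a => by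
      rw [norm_mul, Complex.norm_real, Real.norm_of_nonneg (intWeight_nonneg s a)]
      exact mul_le_mul_of_nonneg_right (hg a) (intWeight_nonneg s a)
  have hdec : ∑' a : 𝓞 K, g a * (intWeight s a : ℂ) =
      ∑ q : 𝓞 K ⧸ H, g q.out * ((∑' a : J, intWeight s ((a : 𝓞 K) + q.out) : ℝ) : ℂ) := by
    have hs : Summable fun p : (𝓞 K ⧸ H) × J => g (e p) * (intWeight s (e p) : ℂ) :=
      hsum.comp_injective e.injective
    rw [← e.tsum_eq, hs.tsum_prod, tsum_fintype]
    refine Finset.sum_congr rfl fun q _ => ?_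
    rw [Complex.ofReal_tsum, ← tsum_mul_left]
    refine tsum_congr fun a => ?_
    simp only [e, Equiv.coe_fn_mk]
    rw [add_comm, hper _ _ a.2]
  rw [hdec, finsum_eq_sum_of_fintype, div_mul_eq_mul_div, Finset.sum_mul, Finset.sum_div,
    ← Finset.sum_sub_distrib]
  refine (norm_sum_le _ _).trans (Finset.sum_le_sum fun q _ => ?_)
  rw [mul_div_assoc, ← mul_sub, norm_mul]
  refine mul_le_mul (hg _) ?_ (norm_nonneg _) ((norm_nonneg _).trans (hg 0))
  rw [show (Ideal.absNorm J : ℂ) = ((n : ℝ) : ℂ) from (Complex.ofReal_natCast _).symm,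
    ← Complex.ofReal_div, ← Complex.ofReal_sub, Complex.norm_real, Real.norm_eq_abs]
  refine (abs_sub_le _ (latticeSum J s) _).trans (add_le_add
    ((hB q s hs₁ hs₂).trans (le_abs_self _)) ?_)
  rw [le_div_iff₀ (by linarith), ← abs_of_pos (zero_lt_one.trans_le hn), ← abs_mul, sub_mul,
    abs_of_pos (zero_lt_one.trans_le hn), div_mul_cancel₀ _ (by linarith), mul_comm]
  exact (hB₁ s hs₁ hs₂).trans (le_abs_self _)

/-- The plain lattice sum has at most a simple pole. -/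
theorem exists_sub_one_mul_sum_intWeight_le :
    ∃ B : ℝ, ∀ᶠ s in 𝓝[>] (1 : ℝ), (s - 1) * ∑' a : 𝓞 K, intWeight s a ≤ B := by
  obtain ⟨B₁, hB₁⟩ := exists_latticeSum_bound (1 : (Ideal (𝓞 K))⁰)
  refine ⟨dedekindZeta_residue K + 1 + |B₁|, ?_⟩
  filter_upwards [self_mem_nhdsWithin,
    nhdsWithin_le_nhds (Iic_mem_nhds (by norm_num : (1 : ℝ) < 2)),
    tendsto_sub_one_mul_idealZeta (K := K) |>.eventually
      (Iic_mem_nhds (lt_add_one _))] with s hs₁ hs₂ hζ
  simp only [Set.mem_Ioi, Set.mem_Iic] at hs₁ hs₂ hζ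
  have h1 := (abs_le.mp (hB₁ s hs₁ hs₂)).1
  have h4 : ((Ideal.absNorm ((1 : (Ideal (𝓞 K))⁰) : Ideal (𝓞 K)) : ℕ) : ℝ) = 1 := by simp
  rw [h4, one_mul] at h1
  have h2 : latticeSum ((1 : (Ideal (𝓞 K))⁰) : Ideal (𝓞 K)) s ≤ idealZeta K s := by
    have h3 : classZeta (1 : ClassGroup (𝓞 K)) s =
        latticeSum ((1 : (Ideal (𝓞 K))⁰) : Ideal (𝓞 K)) s := by
      rw [classZeta, (hasSum_classZeta hs₁ (C := 1) (J := 1) (by simp)).tsum_eq]
      simp
    rw [← h3, ← sum_classZeta hs₁]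
    exact Finset.single_le_sum (fun C _ ↦ classZeta_nonneg C s) (Finset.mem_univ _)
  calc (s - 1) * ∑' a : 𝓞 K, intWeight s a ≤ (s - 1) * (idealZeta K s + |B₁|) :=
        mul_le_mul_of_nonneg_left (by linarith [le_abs_self B₁]) (by linarith)
    _ ≤ dedekindZeta_residue K + 1 + |B₁| := by
        rw [mul_add]
        exact add_le_add hζ (mul_le_of_le_one_left (abs_nonneg _) (by linarith))

section NormFun

variable {m : ℕ} (η : DirichletCharacter ℂ m)

/-- `η` of the norm of an ideal. -/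
def normChar (I : (Ideal (𝓞 K))⁰) : ℂ := η ((Ideal.absNorm (I : Ideal (𝓞 K)) : ℕ) : ZMod m)

theorem normChar_mul (I J : (Ideal (𝓞 K))⁰) :
    normChar η (I * J) = normChar η I * normChar η J := by
  rw [normChar, normChar, normChar, Submonoid.coe_mul, map_mul, Nat.cast_mul, map_mul]

theorem norm_normChar_le (I : (Ideal (𝓞 K))⁰) : ‖normChar η I‖ ≤ 1 := η.norm_le_one _

/-- The weight `η (N a / N J)` on `J`, zero outside. -/
def quotWeight (J : Ideal (𝓞 K)) (a : 𝓞 K) : ℂ :=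
  if a ∈ J then η (((Ideal.absNorm (Ideal.span {a}) / Ideal.absNorm J : ℕ)) : ZMod m) else 0

theorem norm_quotWeight_le (J : Ideal (𝓞 K)) (a : 𝓞 K) : ‖quotWeight η J a‖ ≤ 1 := by
  rw [quotWeight]
  split_ifs
  · exact η.norm_le_one _
  · simp

/-- `η (N a / N J)` only depends on `a` modulo `m J` when norms are positive. -/
theorem quotWeight_periodic [IsTotallyComplex K] (J : (Ideal (𝓞 K))⁰) (a b : 𝓞 K)
    (hb : b ∈ Ideal.span {(m : 𝓞 K)} * (J : Ideal (𝓞 K))) :
    quotWeight η (J : Ideal (𝓞 K)) (a + b) = quotWeight η (J : Ideal (𝓞 K)) a := by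
  obtain ⟨c, hc, rfl⟩ := Ideal.mem_span_singleton_mul.mp hb
  set J' : Ideal (𝓞 K) := (J : Ideal (𝓞 K))
  have hmc : (m : 𝓞 K) * c ∈ J' := Ideal.mul_mem_left _ _ hc
  by_cases ha : a ∈ J'
  swap
  · rw [quotWeight, quotWeight, if_neg ha, if_neg fun h => ha ((add_mem_cancel_right hmc).mp h)]
  rw [quotWeight, quotWeight, if_pos ha, if_pos (add_mem ha hmc)]
  let bas := RingOfIntegers.basis K
  let bJ := Ideal.selfBasis bas J' (nonZeroDivisors.coe_ne_zero J)
  let eJ : (𝓞 K) ≃ₗ[ℤ] J' := bas.equiv bJ (Equiv.refl _)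
  let ι : (𝓞 K) →ₗ[ℤ] 𝓞 K := (J'.subtype.restrictScalars ℤ).comp eJ.toLinearMap
  let mulJ : J' → ((𝓞 K) →ₗ[ℤ] J') := fun x => (AddMonoidHom.mk'
    (fun y => (⟨y * x, J'.mul_mem_left y x.2⟩ : J'))
    fun y z => Subtype.ext (add_mul y z (x : 𝓞 K))).toIntLinearMap
  let μ : J' →ₗ[ℤ] ((𝓞 K) →ₗ[ℤ] 𝓞 K) := (AddMonoidHom.mk'
    (fun x => eJ.symm.toLinearMap.comp (mulJ x))
    fun x x' => LinearMap.ext fun y => by
      change eJ.symm (mulJ (x + x') y) = eJ.symm (mulJ x y) + eJ.symm (mulJ x' y)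
      rw [← map_add]
      exact congrArg _ (Subtype.ext (mul_add y (x : 𝓞 K) x'))).toIntLinearMap
  have hι : ι.det.natAbs = Ideal.absNorm J' := Ideal.natAbs_det_equiv J' eJ.toAddEquiv
  have hmul : ∀ x : J', ι.comp (μ x) = Algebra.lmul ℤ (𝓞 K) (x : 𝓞 K) := fun x =>
    LinearMap.ext fun y => by
      simp [ι, μ, mulJ, mul_comm]
  -- the value at a member of `J` is a determinant
  have key : ∀ x : J', (((Ideal.absNorm (Ideal.span {(x : 𝓞 K)}) / Ideal.absNorm J' : ℕ)) : ZMod m) =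
      ((ι.det.sign * (μ x).det : ℤ) : ZMod m) := fun x => by
    have hN : Algebra.norm ℤ (x : 𝓞 K) = ι.det * (μ x).det := by
      rw [Algebra.norm_apply, ← hmul, LinearMap.det_comp]
    have hnn : 0 ≤ Algebra.norm ℤ (x : 𝓞 K) := by
      rcases eq_or_ne (x : 𝓞 K) 0 with h | h
      · rw [h, Algebra.norm_zero]
      · have := norm_pos_of_isTotallyComplex (K := K) (x := ((x : 𝓞 K) : K))
          (RingOfIntegers.coe_ne_zero_iff.mpr h)
        rw [← Algebra.coe_norm_int] at this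
        exact_mod_cast this.le
    have h0 : 0 < Ideal.absNorm J' := Ideal.absNorm_pos_of_nonZeroDivisors J
    have hdiv : ((Ideal.absNorm (Ideal.span {(x : 𝓞 K)}) / Ideal.absNorm J' : ℕ) : ℤ) =
        ι.det.sign * (μ x).det := by
      rw [Int.natCast_div, Ideal.absNorm_span_singleton, Int.natAbs_of_nonneg hnn, ← hι,
        ← Int.sign_mul_self, hN]
      refine Int.ediv_eq_of_eq_mul_left ?_ ?_
      · rw [Int.sign_mul_self, hι]
        exact_mod_cast h0.ne'
      · calc ι.det * (μ x).det = (ι.det.sign * ι.det.sign) * ι.det * (μ x).det := by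
              rcases lt_trichotomy ι.det 0 with h | h | h
              · simp [Int.sign_eq_neg_one_of_neg h]
              · simp [h]
              · simp [Int.sign_eq_one_of_pos h]
          _ = _ := by ring
    exact_mod_cast congrArg (fun z : ℤ => (z : ZMod m)) hdiv
  rw [key ⟨_, add_mem ha hmc⟩, key ⟨a, ha⟩]
  refine congrArg η ?_
  have hadd : (⟨a + (m : 𝓞 K) * c, add_mem ha hmc⟩ : J') = ⟨a, ha⟩ + (m : ℤ) • ⟨c, hc⟩ :=
    Subtype.ext (by simp)
  rw [hadd, map_add, map_smul, Int.cast_mul, Int.cast_mul]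
  refine congrArg _ ?_
  rw [← LinearMap.det_toMatrix bas, ← LinearMap.det_toMatrix bas, ← eq_intCast (Int.castRingHom (ZMod m)),
    ← eq_intCast (Int.castRingHom (ZMod m)), RingHom.map_det, RingHom.map_det, map_add, map_smul]
  congr 1
  ext i j
  simp only [RingHom.mapMatrix_apply, Matrix.map_apply, Matrix.add_apply, Matrix.smul_apply,
    smul_eq_mul, map_add, map_mul, eq_intCast]
  simp

/-- The mean value of the weight. -/
def classConst (J : Ideal (𝓞 K)) : ℂ :=
  (∑ᶠ q : 𝓞 K ⧸ (Ideal.span {(m : 𝓞 K)} * J).toAddSubgroup, quotWeight η J q.out) /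
    (Ideal.absNorm (Ideal.span {(m : 𝓞 K)} * J) : ℂ) * (Ideal.absNorm J : ℂ)

set_option maxHeartbeats 1000000 in
/-- Multiplying the ideal by a prime to which `m` is prime divides the constant by `η (N P)`. -/
theorem classConst_mul [NeZero m] [IsTotallyComplex K] (J P : (Ideal (𝓞 K))⁰)
    (hP : IsUnit ((Ideal.absNorm (P : Ideal (𝓞 K)) : ℕ) : ZMod m)) :
    normChar η P * classConst η ((J * P : (Ideal (𝓞 K))⁰) : Ideal (𝓞 K)) =
      classConst η (J : Ideal (𝓞 K)) := by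
  set J₀ : Ideal (𝓞 K) := (J : Ideal (𝓞 K))
  set P₀ : Ideal (𝓞 K) := (P : Ideal (𝓞 K))
  set M := Ideal.span {(m : 𝓞 K)}
  have hm0 : (m : 𝓞 K) ≠ 0 := Nat.cast_ne_zero.mpr (NeZero.ne m)
  -- `1 = t + m v` with `t ∈ P`
  obtain ⟨t, ht, v, htv⟩ : ∃ t ∈ P₀, ∃ v : 𝓞 K, t + (m : 𝓞 K) * v = 1 := by
    obtain ⟨u, hu⟩ := hP
    have hz : (((Ideal.absNorm P₀ : ℤ) * ((u⁻¹ : (ZMod m)ˣ) : ZMod m).val : ℤ) : ZMod m) =
        ((1 : ℤ) : ZMod m) := by
      push_cast
      rw [ZMod.natCast_zmod_val, ← hu, Units.mul_inv]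
    obtain ⟨w, hw⟩ := (ZMod.intCast_eq_intCast_iff_dvd_sub _ _ m).mp hz
    refine ⟨_, P₀.mul_mem_right ((((u⁻¹ : (ZMod m)ˣ) : ZMod m).val : ℕ) : 𝓞 K)
      (Ideal.absNorm_mem P₀), (w : 𝓞 K), ?_⟩
    have := congrArg (fun z : ℤ => (z : 𝓞 K)) hw
    push_cast at this
    linear_combination -this
  have hcopr : ∀ x ∈ M * J₀, x ∈ J₀ * P₀ → x ∈ M * (J₀ * P₀) := fun x hx hx' => by
    obtain ⟨c, hc, rfl⟩ := Ideal.mem_span_singleton_mul.mp hx
    refine Ideal.mem_span_singleton_mul.mpr ⟨c, ?_, rfl⟩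
    have : c = c * t + v * ((m : 𝓞 K) * c) := by linear_combination -c * htv
    rw [this]
    exact add_mem (Ideal.mul_mem_mul hc ht) (Ideal.mul_mem_left _ v hx')
  have hle : M * (J₀ * P₀) ≤ M * J₀ := Ideal.mul_mono_right Ideal.mul_le_left
  have hJP : ((J * P : (Ideal (𝓞 K))⁰) : Ideal (𝓞 K)) = J₀ * P₀ := rfl
  have hfin : ∀ I : Ideal (𝓞 K), I ≠ ⊥ → Finite (𝓞 K ⧸ I.toAddSubgroup) := fun I hI =>
    Ideal.finiteQuotientOfFreeOfNeBot I hI
  have hM : M ≠ ⊥ := by simpa [M] using hm0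
  have := hfin _ (mul_ne_zero hM (mul_ne_zero (nonZeroDivisors.coe_ne_zero J)
    (nonZeroDivisors.coe_ne_zero P)) : M * (J₀ * P₀) ≠ ⊥)
  have := hfin _ (mul_ne_zero hM (nonZeroDivisors.coe_ne_zero J) : M * J₀ ≠ ⊥)
  let _ : Fintype (𝓞 K ⧸ (M * (J₀ * P₀)).toAddSubgroup) := Fintype.ofFinite _
  let _ : Fintype (𝓞 K ⧸ (M * J₀).toAddSubgroup) := Fintype.ofFinite _
  let π : (𝓞 K ⧸ (M * (J₀ * P₀)).toAddSubgroup) → (𝓞 K ⧸ (M * J₀).toAddSubgroup) :=
    fun q => QuotientAddGroup.mk q.out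
  have hout : ∀ (I : Ideal (𝓞 K)) (x : 𝓞 K),
      (QuotientAddGroup.mk x : 𝓞 K ⧸ I.toAddSubgroup).out - x ∈ I := fun I x =>
    (QuotientAddGroup.eq_iff_sub_mem (N := I.toAddSubgroup)).mp (QuotientAddGroup.out_eq' _)
  have hwt : ∀ x ∈ J₀ * P₀, normChar η P * quotWeight η (J₀ * P₀) x = quotWeight η J₀ x := by
    intro x hx
    have hxJ : x ∈ J₀ := (Ideal.mul_le_left : J₀ * P₀ ≤ J₀) hx
    rw [quotWeight, quotWeight, if_pos hx, if_pos hxJ, normChar, ← map_mul, ← Nat.cast_mul]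
    congr 2
    have hdvd : Ideal.absNorm (J₀ * P₀) ∣ Ideal.absNorm (Ideal.span {x}) :=
      Ideal.absNorm_dvd_absNorm_of_le ((Ideal.span_singleton_le_iff_mem _).mpr hx)
    obtain ⟨k, hk⟩ := hdvd
    have h1 : 0 < Ideal.absNorm J₀ := Ideal.absNorm_pos_of_nonZeroDivisors J
    have h2 : 0 < Ideal.absNorm (J₀ * P₀) :=
      Ideal.absNorm_pos_of_nonZeroDivisors (J * P)
    rw [hk, Nat.mul_div_cancel_left _ h2, map_mul, mul_assoc, Nat.mul_div_cancel_left _ h1]
  have hsum : normChar η P * (∑ q : 𝓞 K ⧸ (M * (J₀ * P₀)).toAddSubgroup,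
      quotWeight η (J₀ * P₀) q.out) =
      ∑ q : 𝓞 K ⧸ (M * J₀).toAddSubgroup, quotWeight η J₀ q.out := by
    rw [Finset.mul_sum,
      ← Finset.sum_filter_of_ne (p := fun q => q.out ∈ J₀ * P₀) (fun q _ hq => by
        by_contra h
        exact hq (by simp [quotWeight, h])),
      ← Finset.sum_filter_of_ne (s := Finset.univ (α := 𝓞 K ⧸ (M * J₀).toAddSubgroup))
        (p := fun q => q.out ∈ J₀) (fun q _ hq => by
        by_contra h
        exact hq (by simp [quotWeight, h]))]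
    refine Finset.sum_bij (fun q _ => π q) (fun q hq => ?_) (fun q hq q' hq' hqq => ?_)
      (fun y hy => ?_) fun q hq => ?_
    · simp only [Finset.mem_filter, Finset.mem_univ, true_and] at hq ⊢
      have h1 : (π q).out - q.out ∈ J₀ :=
        (Ideal.mul_le_right : M * J₀ ≤ J₀) (hout (M * J₀) q.out)
      have h2 : q.out ∈ J₀ := (Ideal.mul_le_left : J₀ * P₀ ≤ J₀) hq
      simpa only [sub_add_cancel] using add_mem h1 h2
    · simp only [Finset.mem_filter, Finset.mem_univ, true_and] at hq hq'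
      have h1 : q.out - q'.out ∈ M * J₀ :=
        (QuotientAddGroup.eq_iff_sub_mem (N := (M * J₀).toAddSubgroup)).mp hqq
      rw [← QuotientAddGroup.out_eq' q, ← QuotientAddGroup.out_eq' q']
      exact (QuotientAddGroup.eq_iff_sub_mem (N := (M * (J₀ * P₀)).toAddSubgroup)).mpr
        (hcopr _ h1 (sub_mem hq hq'))
    · simp only [Finset.mem_filter, Finset.mem_univ, true_and] at hy
      refine ⟨QuotientAddGroup.mk (y.out * t), ?_, ?_⟩
      · simp only [Finset.mem_filter, Finset.mem_univ, true_and]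
        have h1 := (Ideal.mul_le_right : M * (J₀ * P₀) ≤ J₀ * P₀)
          (hout (M * (J₀ * P₀)) (y.out * t))
        simpa only [sub_add_cancel] using add_mem h1 (Ideal.mul_mem_mul hy ht)
      · conv_rhs => rw [← QuotientAddGroup.out_eq' y]
        refine (QuotientAddGroup.eq_iff_sub_mem (N := (M * J₀).toAddSubgroup)).mpr ?_
        have h1 := hle (hout (M * (J₀ * P₀)) (y.out * t))
        have h2 : y.out * t - y.out ∈ M * J₀ := by
          rw [show y.out * t - y.out = (m : 𝓞 K) * (-(v * y.out)) by linear_combination y.out * htv]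
          exact Ideal.mul_mem_mul (Ideal.mem_span_singleton_self _)
            (neg_mem (Ideal.mul_mem_left _ _ hy))
        simpa using add_mem h1 h2
    · simp only [Finset.mem_filter, Finset.mem_univ, true_and] at hq
      rw [hwt _ hq]
      have h1 := hout (M * J₀) q.out
      conv_rhs => rw [show (π q).out = q.out + ((π q).out - q.out) by ring]
      exact (quotWeight_periodic η J q.out _ h1).symm
  rw [hJP]
  simp only [classConst, finsum_eq_sum_of_fintype, map_mul, Nat.cast_mul]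
  rw [← hsum]
  have hNP : ((Ideal.absNorm P₀ : ℕ) : ℂ) ≠ 0 :=
    Nat.cast_ne_zero.mpr (Ideal.absNorm_pos_of_nonZeroDivisors P).ne'
  have hNJ : ((Ideal.absNorm J₀ : ℕ) : ℂ) ≠ 0 :=
    Nat.cast_ne_zero.mpr (Ideal.absNorm_pos_of_nonZeroDivisors J).ne'
  field_simp
  ring

end NormFun

end FermatAgent.DeligneSerre
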